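import Mathlib.RingTheory.Radical.NatInt
import Mathlib.AlgebraicGeometry.EllipticCurve.Weierstrass
import Mathlib.Analysis.SpecialFunctions.Pow.Real
import Fermat.Agent.Root.SummaryThueMahler

/-!
# The statements of the abc, Hall and Szpiro conjectures

None of the three is proved or assumed here: they are propositions, compared with one another and
used as explicit hypotheses. The sanity lemmas show that the hypotheses are not degenerate: the
exponent `1 + ε` cannot be replaced by `1`, the coprimality conditions cannot be dropped, and the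
abc bound holds unconditionally on the triples supported on any given finite set of primes.
-/

set_option autoImplicit false

noncomputable section

open UniqueFactorizationMonoid (radical radical_mul_dvd radical_pow radical_dvd_radical)

namespace FA.Abc

/-- The abc conjecture of Masser and Oesterlé. -/
def ABCBound : Prop :=
  ∀ ε : ℝ, 0 < ε → ∃ C : ℝ, ∀ a b c : ℕ, 0 < a → 0 < b → a.Coprime b → a + b = c →
    (c : ℝ) ≤ C * ((radical (a * b * c) : ℕ) : ℝ) ^ (1 + ε)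

/-- Hall's conjecture with radicals: `x³ - y²` has a large radical if `x` and `y` are coprime up
to a bounded power of `6`. -/
def HallBound : Prop :=
  ∀ ε : ℝ, 0 < ε → ∀ k : ℕ, ∃ C : ℝ, ∀ x y : ℤ, x ^ 3 ≠ y ^ 2 → Int.gcd x y ∣ 6 ^ k →
    ((max (|x| ^ 3) (y ^ 2) : ℤ) : ℝ) ≤
      C * ((radical (x ^ 3 - y ^ 2).natAbs : ℕ) : ℝ) ^ (6 + ε)

/-- The generalised Szpiro conjecture for Weierstrass models over `ℤ` whose invariants `c₄` and
`c₆` are coprime up to a bounded power of `6`. -/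
def SzpiroBound : Prop :=
  ∀ ε : ℝ, 0 < ε → ∀ k : ℕ, ∃ C : ℝ, ∀ W : WeierstrassCurve ℤ, W.Δ ≠ 0 →
    Int.gcd W.c₄ W.c₆ ∣ 6 ^ k →
    ((max (|W.c₄| ^ 3) (W.c₆ ^ 2) : ℤ) : ℝ) ≤ C * ((radical W.Δ.natAbs : ℕ) : ℝ) ^ (6 + ε)

/-! ### Radicals of natural numbers -/

theorem rad_le_self {n : ℕ} (hn : n ≠ 0) : radical n ≤ n := Nat.radical_le_self_iff.2 hn

theorem rad_mul_le (a b : ℕ) : radical (a * b) ≤ radical a * radical b :=
  Nat.le_of_dvd (Nat.mul_pos (Nat.radical_pos a) (Nat.radical_pos b)) radical_mul_dvd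

theorem rad_mul_le_mul {a b : ℕ} (ha : a ≠ 0) (hb : b ≠ 0) : radical (a * b) ≤ a * b :=
  rad_le_self (Nat.mul_ne_zero ha hb)

theorem rad_mono {a b : ℕ} (h : a ∣ b) (hb : b ≠ 0) : radical a ≤ radical b :=
  Nat.le_of_dvd (Nat.radical_pos b) (radical_dvd_radical h hb)

theorem rad_pow_le {a : ℕ} (ha : a ≠ 0) (n : ℕ) : radical (a ^ n) ≤ a :=
  (Nat.le_of_dvd (Nat.radical_pos a) UniqueFactorizationMonoid.radical_pow_dvd).trans
    (rad_le_self ha)

theorem one_le_rad_cast (n : ℕ) : (1 : ℝ) ≤ ((radical n : ℕ) : ℝ) := by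
  exact_mod_cast Nat.radical_pos n

theorem one_le_rad_rpow (n : ℕ) {e : ℝ} (he : 0 ≤ e) : (1 : ℝ) ≤ ((radical n : ℕ) : ℝ) ^ e :=
  Real.one_le_rpow (one_le_rad_cast n) he

/-! ### The signed form of the abc bound -/

/-- The abc bound for coprime integers `u + v = w`, whatever their signs. -/
theorem abc_signed (h : ABCBound) {ε : ℝ} (hε : 0 < ε) :
    ∃ C : ℝ, 1 ≤ C ∧ ∀ u v w : ℤ, u ≠ 0 → v ≠ 0 → w ≠ 0 → IsCoprime u v → u + v = w →
      ((max u.natAbs (max v.natAbs w.natAbs) : ℕ) : ℝ) ≤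
        C * ((radical (u * v * w).natAbs : ℕ) : ℝ) ^ (1 + ε) := by
  obtain ⟨C, hC⟩ := h ε hε
  refine ⟨max C 1, le_max_right _ _, fun u v w hu hv hw hco huvw => ?_⟩
  have key : ∀ a b c : ℕ, 0 < a → 0 < b → a.Coprime b → a + b = c →
      (max a (max b c) : ℕ) = c → ((max a (max b c) : ℕ) : ℝ) ≤
        max C 1 * ((radical (a * b * c) : ℕ) : ℝ) ^ (1 + ε) := by
    intro a b c ha hb hab habc hm
    rw [hm]
    exact (hC a b c ha hb hab habc).trans
      (mul_le_mul_of_nonneg_right (le_max_left _ _) (by positivity))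
  have huw : IsCoprime u w := by
    simpa [← huvw, add_comm] using hco.add_mul_left_right (1 : ℤ)
  have hvw : IsCoprime v w := by
    simpa [← huvw] using hco.symm.add_mul_left_right (1 : ℤ)
  rw [Int.isCoprime_iff_gcd_eq_one] at hco huw hvw
  have hu' := Int.natAbs_pos.2 hu
  have hv' := Int.natAbs_pos.2 hv
  have hw' := Int.natAbs_pos.2 hw
  have hprod : (u * v * w).natAbs = u.natAbs * v.natAbs * w.natAbs := by
    rw [Int.natAbs_mul, Int.natAbs_mul]
  rw [hprod]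
  rcases (by omega : u.natAbs + v.natAbs = w.natAbs ∨ u.natAbs + w.natAbs = v.natAbs ∨
      v.natAbs + w.natAbs = u.natAbs) with h1 | h1 | h1
  · exact key _ _ _ hu' hv' hco h1 (by omega)
  · have e1 := key _ _ _ hu' hw' huw h1 (by omega)
    rwa [max_comm w.natAbs, mul_right_comm] at e1
  · have e1 := key _ _ _ hv' hw' hvw h1 (by omega)
    rw [show max v.natAbs (max w.natAbs u.natAbs) = max u.natAbs (max v.natAbs w.natAbs) by omega,
      show v.natAbs * w.natAbs * u.natAbs = u.natAbs * v.natAbs * w.natAbs by ring] at e1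
    exact e1

/-! ### Sanity of the hypotheses -/

theorem two_pow_dvd_three_pow (n : ℕ) : 2 ^ (n + 1) ∣ 3 ^ 2 ^ n - 1 := by
  induction n with
  | zero => norm_num
  | succ n ih =>
    have h : 3 ^ 2 ^ (n + 1) - 1 = (3 ^ 2 ^ n + 1) * (3 ^ 2 ^ n - 1) := by
      rw [← Nat.sq_sub_sq, one_pow, ← pow_mul, ← pow_succ]
    rw [h, pow_succ']
    exact mul_dvd_mul (even_iff_two_dvd.1 (Odd.add_one (Odd.pow (by decide)))) ih

/-- The exponent `1 + ε` cannot be lowered to `1`. -/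
theorem not_abc_exponent_one :
    ¬∃ C : ℝ, ∀ a b c : ℕ, 0 < a → 0 < b → a.Coprime b → a + b = c →
      (c : ℝ) ≤ C * ((radical (a * b * c) : ℕ) : ℝ) := by
  rintro ⟨C, hC⟩
  obtain ⟨n, hn⟩ := pow_unbounded_of_one_lt (6 * max C 1) one_lt_two
  obtain ⟨m, hm⟩ := two_pow_dvd_three_pow n
  have h3 : 3 ≤ 3 ^ 2 ^ n := Nat.le_self_pow (by positivity) 3
  have hm0 : 0 < m := Nat.pos_of_ne_zero fun h => by simp [h] at hm; omega
  have h := hC 1 (2 ^ (n + 1) * m) (3 ^ 2 ^ n) one_pos (by positivity) (Nat.coprime_one_left _)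
    (by omega)
  have hr : radical (1 * (2 ^ (n + 1) * m) * 3 ^ 2 ^ n) ≤ 6 * m := by
    calc radical (1 * (2 ^ (n + 1) * m) * 3 ^ 2 ^ n)
        ≤ radical (2 ^ (n + 1) * m) * radical (3 ^ 2 ^ n) := by rw [one_mul]; exact rad_mul_le _ _
      _ ≤ radical (2 ^ (n + 1)) * radical m * 3 :=
        Nat.mul_le_mul (rad_mul_le _ _) (rad_pow_le (by norm_num) _)
      _ ≤ 2 * m * 3 := Nat.mul_le_mul_right _
        (Nat.mul_le_mul (rad_pow_le two_ne_zero _) (rad_le_self hm0.ne'))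
      _ = 6 * m := by ring
  have hb : 2 ^ (n + 1) * m < 3 ^ 2 ^ n := by omega
  have hb' : (2 : ℝ) ^ (n + 1) * m < ((3 ^ 2 ^ n : ℕ) : ℝ) := by exact_mod_cast hb
  have hr' : C * ((radical (1 * (2 ^ (n + 1) * m) * 3 ^ 2 ^ n) : ℕ) : ℝ) ≤ max C 1 * (6 * m) :=
    mul_le_mul (le_max_left _ _) (by exact_mod_cast hr) (by positivity) (by positivity)
  have hm1 : (0 : ℝ) < m := by exact_mod_cast hm0
  have : (2 : ℝ) ^ (n + 1) < 6 * max C 1 := by nlinarith
  rw [pow_succ] at this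
  nlinarith [pow_pos (two_pos : (0 : ℝ) < 2) n]

/-- The coprimality condition in the abc bound cannot be dropped, whatever the exponent. -/
theorem not_abc_without_coprime (e : ℝ) :
    ¬∃ C : ℝ, ∀ a b c : ℕ, 0 < a → 0 < b → a + b = c →
      (c : ℝ) ≤ C * ((radical (a * b * c) : ℕ) : ℝ) ^ e := by
  rintro ⟨C, hC⟩
  obtain ⟨n, hn⟩ := pow_unbounded_of_one_lt (C * (2 : ℝ) ^ e) one_lt_two
  have h := hC (2 ^ n) (2 ^ n) (2 ^ (n + 1)) (by positivity) (by positivity) (by ring)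
  have hr : radical (2 ^ n * 2 ^ n * 2 ^ (n + 1)) = 2 := by
    rw [← pow_add, ← pow_add, radical_pow _ (by omega),
      UniqueFactorizationMonoid.radical_of_prime Nat.prime_two.prime, normalize_eq]
  rw [hr, pow_succ] at h
  push_cast at h
  nlinarith [pow_pos (two_pos : (0 : ℝ) < 2) n]

/-- The gcd condition in the Hall bound cannot be dropped, whatever the exponent. -/
theorem not_hall_without_gcd (e : ℝ) :
    ¬∃ C : ℝ, ∀ x y : ℤ, x ^ 3 ≠ y ^ 2 →
      ((max (|x| ^ 3) (y ^ 2) : ℤ) : ℝ) ≤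
        C * ((radical (x ^ 3 - y ^ 2).natAbs : ℕ) : ℝ) ^ e := by
  rintro ⟨C, hC⟩
  obtain ⟨n, hn⟩ := pow_unbounded_of_one_lt (C * (14 : ℝ) ^ e) one_lt_two
  set m := n + 1 with hm
  have hd : (2 * 4 ^ m : ℤ) ^ 3 - ((8 : ℤ) ^ m) ^ 2 = ((7 * 2 ^ (6 * m) : ℕ) : ℤ) := by
    have e4 : (4 : ℤ) ^ m = (2 ^ m) ^ 2 := by rw [← pow_mul, mul_comm, pow_mul]; norm_num
    have e8 : (8 : ℤ) ^ m = (2 ^ m) ^ 3 := by rw [← pow_mul, mul_comm, pow_mul]; norm_num
    push_cast
    rw [e4, e8, mul_comm 6 m, pow_mul]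
    ring
  have hne : (2 * 4 ^ m : ℤ) ^ 3 ≠ ((8 : ℤ) ^ m) ^ 2 := by
    rw [← sub_ne_zero, hd]; positivity
  have h := hC _ _ hne
  have hr : radical (7 * 2 ^ (6 * m)) = 14 := by
    rw [Nat.radical_eq_prod_primeFactors, Nat.primeFactors_mul (by norm_num) (by positivity),
      Nat.primeFactors_prime_pow (by omega) Nat.prime_two,
      Nat.Prime.primeFactors (by decide : Nat.Prime 7)]
    rfl
  rw [hd, Int.natAbs_natCast, hr] at h
  have hge : ((2 : ℝ) ^ n) ≤
      ((max (|2 * 4 ^ m| ^ 3) (((8 : ℤ) ^ m) ^ 2) : ℤ) : ℝ) := by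
    have : (2 : ℤ) ^ n ≤ ((8 : ℤ) ^ m) ^ 2 := by
      rw [← pow_mul, show (8 : ℤ) = 2 ^ 3 by norm_num, ← pow_mul]
      exact pow_le_pow_right₀ one_le_two (by omega)
    have h2 := (Int.cast_le (R := ℝ)).2 (this.trans (le_max_right (|2 * 4 ^ m| ^ 3) _))
    rwa [Int.cast_pow, Int.cast_ofNat] at h2
  rw [Nat.cast_ofNat] at h
  linarith

/-- The abc bound holds unconditionally, with exponent `0`, on the triples supported on a finite
set of primes. -/
theorem abc_on_finite_support (S : Finset ℕ) :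
    ∃ C : ℝ, ∀ a b c : ℕ, 0 < a → 0 < b → a.Coprime b → a + b = c →
      (∀ q : ℕ, q.Prime → q ∣ a * b * c → q ∈ S) → ∀ e : ℝ, 0 ≤ e →
      (c : ℝ) ≤ C * ((radical (a * b * c) : ℕ) : ℝ) ^ e := by
  have hfin := (FA.Summary.unit_equation_finite S).image (fun p : ℤ × ℤ => ((p.1 + p.2 : ℤ) : ℝ))
  obtain ⟨M, hM⟩ := hfin.bddAbove
  refine ⟨max M 0, fun a b c ha hb hab habc hS e he => ?_⟩
  have hc : (c : ℝ) ≤ max M 0 := by
    refine le_max_of_le_left (hM ⟨((a : ℤ), (b : ℤ)), ⟨Nat.isCoprime_iff_coprime.2 hab, ?_,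
      fun q hq hd => hS q hq ?_⟩, ?_⟩)
    · exact mul_ne_zero (mul_ne_zero (by omega) (by omega)) (by omega)
    · rw [← habc]
      have hd' : (q : ℤ) ∣ ((a * b * (a + b) : ℕ) : ℤ) := by push_cast; exact hd
      exact Int.natCast_dvd_natCast.1 hd' 
    · simp [← habc]
  exact hc.trans (le_mul_of_one_le_right (le_max_right _ _) (one_le_rad_rpow _ he))

end FA.Abc

end
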