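import Fermat.Agent.Abc.Basic

/-!
# Exponential Diophantine equations under the abc bound

The Fermat–Catalan conjecture and the asymptotic finiteness of the generalised Fermat equation
`A xⁿ + B yⁿ = C zⁿ`, both conditional on the abc bound.
-/

set_option autoImplicit false

noncomputable section

open UniqueFactorizationMonoid (radical)

namespace FA.Abc

theorem margin_sorted {p q r : ℕ} (hp : 0 < p) (hpq : p ≤ q) (hqr : q ≤ r)
    (h : (1 : ℝ) / p + 1 / q + 1 / r < 1) : (1 : ℝ) / p + 1 / q + 1 / r ≤ 41 / 42 := by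
  have inv_le : ∀ {m n : ℕ}, 0 < m → m ≤ n → (1 : ℝ) / n ≤ 1 / m := fun hm hmn =>
    one_div_le_one_div_of_le (by exact_mod_cast hm) (by exact_mod_cast hmn)
  have hq : 0 < q := hp.trans_le hpq
  have hr : 0 < r := hq.trans_le hqr
  have q0 : (0 : ℝ) < (q : ℝ)⁻¹ := inv_pos.2 (by exact_mod_cast hq)
  have r0 : (0 : ℝ) < (r : ℝ)⁻¹ := inv_pos.2 (by exact_mod_cast hr)
  rcases (by omega : p = 1 ∨ p = 2 ∨ p = 3 ∨ 4 ≤ p) with rfl | rfl | rfl | hp4
  · norm_num at h
    linarith
  · rcases (by omega : q = 2 ∨ q = 3 ∨ q = 4 ∨ 5 ≤ q) with rfl | rfl | rfl | hq5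
    · norm_num at h
      linarith
    · have h7 : 7 ≤ r := by
        by_contra hlt
        have := inv_le (m := r) (n := 6) hr (by omega)
        norm_num at h this
        linarith
      have := inv_le (m := 7) (by norm_num) h7
      norm_num at this ⊢
      linarith
    · have h5 : 5 ≤ r := by
        by_contra hlt
        have := inv_le (m := r) (n := 4) hr (by omega)
        norm_num at h this
        linarith
      have := inv_le (m := 5) (by norm_num) h5
      norm_num at this ⊢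
      linarith
    · have h1 := inv_le (m := 5) (by norm_num) hq5
      have h2 := inv_le (m := 5) (by norm_num) (hq5.trans hqr)
      norm_num at h1 h2 ⊢
      linarith
  · rcases (by omega : q = 3 ∨ 4 ≤ q) with rfl | hq4
    · have h4 : 4 ≤ r := by
        by_contra hlt
        have := inv_le (m := r) (n := 3) hr (by omega)
        norm_num at h this
        linarith
      have := inv_le (m := 4) (by norm_num) h4
      norm_num at this ⊢
      linarith
    · have h1 := inv_le (m := 4) (by norm_num) hq4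
      have h2 := inv_le (m := 4) (by norm_num) (hq4.trans hqr)
      norm_num at h1 h2 ⊢
      linarith
  · have h1 := inv_le (m := 4) (by norm_num) hp4
    have h2 := inv_le (m := 4) (by norm_num) (hp4.trans hpq)
    have h3 := inv_le (m := 4) (by norm_num) ((hp4.trans hpq).trans hqr)
    norm_num at h1 h2 h3 ⊢
    linarith

theorem margin {p q r : ℕ} (hp : 0 < p) (hq : 0 < q) (hr : 0 < r)
    (h : (1 : ℝ) / p + 1 / q + 1 / r < 1) : (1 : ℝ) / p + 1 / q + 1 / r ≤ 41 / 42 := by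
  rcases le_total p q with hpq | hpq <;> rcases le_total q r with hqr | hqr <;>
    rcases le_total p r with hpr | hpr
  · exact margin_sorted hp hpq hqr h
  · exact margin_sorted hp hpq hqr h
  · linarith [margin_sorted hp hpr hqr (by linarith)]
  · linarith [margin_sorted hr hpr hpq (by linarith)]
  · linarith [margin_sorted hq hpq hpr (by linarith)]
  · linarith [margin_sorted hq hqr hpr (by linarith)]
  · linarith [margin_sorted hr hqr hpq (by linarith)]
  · linarith [margin_sorted hr hqr hpq (by linarith)]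

/-- **Conditional, Fermat–Catalan**: under abc there are only finitely many coprime triples of
powers `x ^ p + y ^ q = z ^ r` with `1/p + 1/q + 1/r < 1`. -/
theorem fermatCatalan (h : ABCBound) :
    {v : ℕ × ℕ × ℕ | 0 < v.1 ∧ 0 < v.2.1 ∧ v.1.Coprime v.2.1 ∧ v.1 + v.2.1 = v.2.2 ∧
      ∃ x y z p q r : ℕ, 0 < p ∧ 0 < q ∧ 0 < r ∧ (1 : ℝ) / p + 1 / q + 1 / r < 1 ∧
        v.1 = x ^ p ∧ v.2.1 = y ^ q ∧ v.2.2 = z ^ r}.Finite := by
  obtain ⟨C, hC⟩ := h (1 / 82) (by norm_num)
  obtain ⟨M, hM⟩ := exists_nat_ge (max C 1 ^ 84)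
  refine (((Set.finite_Iic M).prod ((Set.finite_Iic M).prod (Set.finite_Iic M)))).subset ?_
  rintro ⟨a, b, c⟩ ⟨ha, hb, hab, habc, x, y, z, p, q, r, hp, hq, hr, hlt, hax, hby, hcz⟩
  simp only at ha hb hab habc hax hby hcz
  have hx : x ≠ 0 := fun h0 => by simp [hax, h0, hp.ne'] at ha
  have hy : y ≠ 0 := fun h0 => by simp [hby, h0, hq.ne'] at hb
  have hz : z ≠ 0 := fun h0 => by simp [h0, hr.ne'] at hcz; omega
  have hrad : radical (a * b * c) ≤ x * y * z := by
    rw [hax, hby, hcz]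
    exact ((rad_mul_le _ _).trans (Nat.mul_le_mul_right _ (rad_mul_le _ _))).trans
      (Nat.mul_le_mul (Nat.mul_le_mul (rad_pow_le hx p) (rad_pow_le hy q)) (rad_pow_le hz r))
  have hc0 : (1 : ℝ) ≤ c := by exact_mod_cast (show 1 ≤ c by omega)
  have root : ∀ w n : ℕ, 0 < n → w ^ n ≤ c → (w : ℝ) ≤ (c : ℝ) ^ ((1 : ℝ) / n) := by
    intro w n hn hw
    have hw' : (w : ℝ) ^ n ≤ c := by exact_mod_cast hw
    rw [← Real.pow_rpow_inv_natCast (Nat.cast_nonneg w) hn.ne', one_div]
    exact Real.rpow_le_rpow (by positivity) hw' (by positivity)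
  have hR : ((radical (a * b * c) : ℕ) : ℝ) ≤ (c : ℝ) ^ (41 / 42 : ℝ) := by
    refine le_trans ?_ (Real.rpow_le_rpow_of_exponent_le hc0 (margin hp hq hr hlt))
    rw [Real.rpow_add (by linarith), Real.rpow_add (by linarith)]
    have e : ((radical (a * b * c) : ℕ) : ℝ) ≤ ((x * y * z : ℕ) : ℝ) := by exact_mod_cast hrad
    push_cast at e
    refine e.trans ?_
    have hx' := root x p hp (by omega)
    have hy' := root y q hq (by omega)
    have hz' := root z r hr (by omega)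
    gcongr
  have h1 : (c : ℝ) ≤ max C 1 * (c : ℝ) ^ (83 / 84 : ℝ) := by
    refine (hC a b c ha hb hab habc).trans (mul_le_mul (le_max_left _ _) ?_ (by positivity)
      (by positivity))
    refine (Real.rpow_le_rpow (Nat.cast_nonneg _) hR (by norm_num)).trans_eq ?_
    rw [← Real.rpow_mul (by linarith)]
    norm_num
  have h2 : (c : ℝ) ^ (1 / 84 : ℝ) ≤ max C 1 := by
    refine le_of_mul_le_mul_right ?_ (by positivity : (0 : ℝ) < (c : ℝ) ^ (83 / 84 : ℝ))
    rw [← Real.rpow_add (by linarith)]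
    norm_num
    exact h1
  have h3 : (c : ℝ) ≤ max C 1 ^ 84 := by
    have e := pow_le_pow_left₀ (by positivity) h2 84
    rw [← Real.rpow_mul_natCast (by linarith), show (1 / 84 : ℝ) * (84 : ℕ) = 1 by norm_num,
      Real.rpow_one] at e
    exact e
  have hcM : c ≤ M := by exact_mod_cast h3.trans hM
  simp only [Set.mem_prod, Set.mem_Iic]
  omega

/-- The Fermat–Catalan set is not empty: `2⁵ + 7² = 3⁴`. -/
theorem fermatCatalan_example :
    (32 : ℕ).Coprime 49 ∧ 32 + 49 = 81 ∧ (1 : ℝ) / (5 : ℕ) + 1 / (2 : ℕ) + 1 / (4 : ℕ) < 1 ∧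
      32 = 2 ^ 5 ∧ 49 = 7 ^ 2 ∧ 81 = 3 ^ 4 := by
  norm_num

theorem natAbs_le_one_of_pow_le {n L : ℕ} {x : ℤ} (hn : L < 2 ^ n) (h : x.natAbs ^ n ≤ L) :
    x.natAbs ≤ 1 := by
  by_contra h2
  have := Nat.pow_le_pow_left (show 2 ≤ x.natAbs by omega) n
  omega

/-- **Conditional**: under abc a generalised Fermat equation `A xⁿ + B yⁿ = C zⁿ` has, for all
large `n`, no coprime solutions other than those with `|x|, |y|, |z| ≤ 1`. -/
theorem generalized_fermat_asymptotic (h : ABCBound) {A B C : ℤ} (hA : A ≠ 0) (hB : B ≠ 0)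
    (hC : C ≠ 0) :
    ∃ N : ℕ, ∀ n : ℕ, N ≤ n → ∀ x y z : ℤ, IsCoprime x y → A * x ^ n + B * y ^ n = C * z ^ n →
      |x| ≤ 1 ∧ |y| ≤ 1 ∧ |z| ≤ 1 := by
  obtain ⟨K₀, -, hK₀⟩ := abc_signed h one_pos
  obtain ⟨K, hK⟩ := exists_nat_ge K₀
  set L : ℕ := A.natAbs * B.natAbs * K * (A.natAbs * B.natAbs * C.natAbs) ^ 2 with hL
  refine ⟨L + A.natAbs + B.natAbs + C.natAbs + 7, fun n hn x y z hco heq => ?_⟩
  have hn2 : n < 2 ^ n := Nat.lt_two_pow_self
  have hA0 := Int.natAbs_pos.2 hA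
  have hB0 := Int.natAbs_pos.2 hB
  have hC0 := Int.natAbs_pos.2 hC
  suffices x.natAbs ≤ 1 ∧ y.natAbs ≤ 1 ∧ z.natAbs ≤ 1 by
    simp only [Int.abs_eq_natAbs]
    omega
  rcases eq_or_ne z 0 with rfl | hz
  · rw [zero_pow (by omega), mul_zero, add_eq_zero_iff_eq_neg] at heq
    have h1 : x ^ n ∣ B := (hco.pow (m := n) (n := n)).dvd_of_dvd_mul_right
      (dvd_neg.1 ⟨A, by rw [← heq]; ring⟩)
    have h2 : y ^ n ∣ A := (hco.symm.pow (m := n) (n := n)).dvd_of_dvd_mul_right
      ⟨-B, by rw [heq]; ring⟩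
    have e1 := Nat.le_of_dvd hB0 (Int.natAbs_dvd_natAbs.2 h1)
    have e2 := Nat.le_of_dvd hA0 (Int.natAbs_dvd_natAbs.2 h2)
    rw [Int.natAbs_pow] at e1 e2
    exact ⟨natAbs_le_one_of_pow_le (by omega) e1, natAbs_le_one_of_pow_le (by omega) e2,
      by simp⟩
  rcases eq_or_ne x 0 with rfl | hx
  · rw [zero_pow (by omega), mul_zero, zero_add] at heq
    have hy : y.natAbs = 1 := Int.isUnit_iff_natAbs_eq.1 (isCoprime_zero_left.1 hco)
    have e := congrArg Int.natAbs heq
    rw [Int.natAbs_mul, Int.natAbs_mul, Int.natAbs_pow, Int.natAbs_pow, hy, one_pow,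
      mul_one] at e
    have e2 : z.natAbs ^ n ≤ B.natAbs := e ▸ Nat.le_mul_of_pos_left _ hC0
    exact ⟨by simp, hy.le, natAbs_le_one_of_pow_le (by omega) e2⟩
  rcases eq_or_ne y 0 with rfl | hy
  · rw [zero_pow (by omega), mul_zero, add_zero] at heq
    have hx1 : x.natAbs = 1 := Int.isUnit_iff_natAbs_eq.1 (isCoprime_zero_right.1 hco)
    have e := congrArg Int.natAbs heq
    rw [Int.natAbs_mul, Int.natAbs_mul, Int.natAbs_pow, Int.natAbs_pow, hx1, one_pow,
      mul_one] at e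
    have e2 : z.natAbs ^ n ≤ A.natAbs := e ▸ Nat.le_mul_of_pos_left _ hC0
    exact ⟨hx1.le, by simp, natAbs_le_one_of_pow_le (by omega) e2⟩
  obtain ⟨u, hu⟩ : ((Int.gcd (A * x ^ n) (B * y ^ n) : ℕ) : ℤ) ∣ A * x ^ n := Int.gcd_dvd_left _ _
  obtain ⟨v, hv⟩ : ((Int.gcd (A * x ^ n) (B * y ^ n) : ℕ) : ℤ) ∣ B * y ^ n := Int.gcd_dvd_right _ _
  set g := Int.gcd (A * x ^ n) (B * y ^ n) with hg
  have hg0 : 0 < g := Int.gcd_pos_of_ne_zero_left _ (mul_ne_zero hA (pow_ne_zero _ hx))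
  have huv : IsCoprime u v := by
    rw [Int.isCoprime_iff_gcd_eq_one]
    have e := hg
    rw [hu, hv, Int.gcd_mul_left, Int.natAbs_natCast] at e
    exact Nat.eq_of_mul_eq_mul_left hg0 (e.symm.trans (mul_one g).symm)
  have hgAB : g ≤ A.natAbs * B.natAbs := by
    obtain ⟨a, b, hab⟩ := hco.pow (m := n) (n := n)
    have hd : (g : ℤ) ∣ A * B :=
      ⟨a * B * u + b * A * v, by linear_combination -(A * B) * hab + a * B * hu + b * A * hv⟩
    have := Nat.le_of_dvd (Nat.mul_pos hA0 hB0)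
      (Int.natAbs_mul A B ▸ Int.natCast_dvd.1 hd)
    exact this
  have hu0 : u ≠ 0 := fun h0 => by simp [h0, hA, hx] at hu
  have hv0 : v ≠ 0 := fun h0 => by simp [h0, hB, hy] at hv
  have hw : C * z ^ n = g * (u + v) := by rw [← heq, hu, hv]; ring
  have hw0 : u + v ≠ 0 := fun h0 => by simp [h0, hC, hz] at hw
  have e := hK₀ u v (u + v) hu0 hv0 hw0 huv rfl
  set M := max x.natAbs (max y.natAbs z.natAbs) with hM
  suffices M ≤ 1 by omega
  by_contra hM1
  have hR : radical (u * v * (u + v)).natAbs ≤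
      A.natAbs * B.natAbs * C.natAbs * M ^ 3 := by
    have hd : u * v * (u + v) ∣ A * x ^ n * (B * y ^ n) * (C * z ^ n) :=
      mul_dvd_mul (mul_dvd_mul ⟨g, by rw [hu, mul_comm]⟩ ⟨g, by rw [hv, mul_comm]⟩)
        ⟨g, by rw [hw, mul_comm]⟩
    refine (rad_mono (Int.natAbs_dvd_natAbs.2 hd) (Int.natAbs_ne_zero.2 (mul_ne_zero
      (mul_ne_zero (mul_ne_zero hA (pow_ne_zero _ hx)) (mul_ne_zero hB (pow_ne_zero _ hy)))
      (mul_ne_zero hC (pow_ne_zero _ hz))))).trans ?_
    rw [Int.natAbs_mul, Int.natAbs_mul, Int.natAbs_mul, Int.natAbs_mul, Int.natAbs_mul,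
      Int.natAbs_pow, Int.natAbs_pow, Int.natAbs_pow]
    have key : ∀ {D w : ℕ}, D ≠ 0 → w ≠ 0 → w ≤ M → radical (D * w ^ n) ≤ D * M :=
      fun hD hw hwM => (rad_mul_le _ _).trans
        (Nat.mul_le_mul (rad_le_self hD) ((rad_pow_le hw n).trans hwM))
    calc _ ≤ radical (A.natAbs * x.natAbs ^ n) * radical (B.natAbs * y.natAbs ^ n) *
          radical (C.natAbs * z.natAbs ^ n) :=
        (rad_mul_le _ _).trans (Nat.mul_le_mul_right _ (rad_mul_le _ _))
      _ ≤ A.natAbs * M * (B.natAbs * M) * (C.natAbs * M) :=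
        Nat.mul_le_mul (Nat.mul_le_mul (key hA0.ne' (by omega) (le_max_left _ _))
          (key hB0.ne' (by omega) (le_max_of_le_right (le_max_left _ _))))
          (key hC0.ne' (by omega) (le_max_of_le_right (le_max_right _ _)))
      _ = _ := by ring
  have hT : max u.natAbs (max v.natAbs (u + v).natAbs) ≤
      K * (radical (u * v * (u + v)).natAbs) ^ 2 := by
    have e1 : (((max u.natAbs (max v.natAbs (u + v).natAbs)) : ℕ) : ℝ) ≤
        ((K * (radical (u * v * (u + v)).natAbs) ^ 2 : ℕ) : ℝ) := by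
      refine e.trans ?_
      rw [show (1 : ℝ) + 1 = ((2 : ℕ) : ℝ) by norm_num, Real.rpow_natCast]
      push_cast
      exact mul_le_mul_of_nonneg_right hK (by positivity)
    exact_mod_cast e1
  have hMn : M ^ n ≤ g * max u.natAbs (max v.natAbs (u + v).natAbs) := by
    have p1 : x.natAbs ^ n ≤ g * u.natAbs := by
      have e1 := congrArg Int.natAbs hu
      rw [Int.natAbs_mul, Int.natAbs_mul, Int.natAbs_pow, Int.natAbs_natCast] at e1
      exact e1 ▸ Nat.le_mul_of_pos_left _ hA0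
    have p2 : y.natAbs ^ n ≤ g * v.natAbs := by
      have e1 := congrArg Int.natAbs hv
      rw [Int.natAbs_mul, Int.natAbs_mul, Int.natAbs_pow, Int.natAbs_natCast] at e1
      exact e1 ▸ Nat.le_mul_of_pos_left _ hB0
    have p3 : z.natAbs ^ n ≤ g * (u + v).natAbs := by
      have e1 := congrArg Int.natAbs hw
      rw [Int.natAbs_mul, Int.natAbs_mul, Int.natAbs_pow, Int.natAbs_natCast] at e1
      exact e1 ▸ Nat.le_mul_of_pos_left _ hC0
    rcases (by omega : M = x.natAbs ∨ M = y.natAbs ∨ M = z.natAbs) with e' | e' | e' <;> rw [e']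
    · exact p1.trans (Nat.mul_le_mul le_rfl (le_max_left _ _))
    · exact p2.trans (Nat.mul_le_mul le_rfl (le_max_of_le_right (le_max_left _ _)))
    · exact p3.trans (Nat.mul_le_mul le_rfl (le_max_of_le_right (le_max_right _ _)))
  have hfin : M ^ n ≤ L * M ^ 6 := by
    refine hMn.trans ((Nat.mul_le_mul hgAB (hT.trans (Nat.mul_le_mul le_rfl
      (Nat.pow_le_pow_left hR 2)))).trans_eq ?_)
    rw [hL]; ring
  rw [show n = n - 6 + 6 by omega, pow_add] at hfin
  have h6 := Nat.le_of_mul_le_mul_right hfin (pow_pos (by omega) 6)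
  have h7 : n - 6 < 2 ^ (n - 6) := Nat.lt_two_pow_self
  have h8 := Nat.pow_le_pow_left (show 2 ≤ M by omega) (n - 6)
  omega

end FA.Abc

end
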