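import Fermat.Agent.Abc.Basic

/-!
# The equivalence of the abc, Hall and Szpiro conjectures

The arguments of Frey and Oesterlé: a coprime triple `a + b = c` gives the curve
`Y² = X(X - a)(X + b)`, whose discriminant `16(abc)²` has small radical while its invariants have
height `c⁶`; conversely `c₄³ - c₆² = 1728Δ` is, up to a bounded common divisor, an abc triple.
-/

set_option autoImplicit false

noncomputable section

open UniqueFactorizationMonoid (radical radical_pow)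

namespace FA.Abc

theorem gcd_pow_dvd_gcd_cube (x y : ℤ) : Int.gcd (x ^ 3) (y ^ 2) ∣ Int.gcd x y ^ 3 := by
  simp only [Int.gcd_def, Int.natAbs_pow]
  rw [← Nat.pow_gcd_pow]
  exact Nat.gcd_dvd_gcd_of_dvd_right _ (pow_dvd_pow _ (by norm_num))

/-- Absorbing a small power of the height. -/
theorem le_of_le_mul_rpow {H B R δ : ℝ} (hH : 0 < H) (hB : 0 ≤ B) (hR : 0 ≤ R)
    (hδ : 5 * δ < 1) (h : H ≤ B * (H ^ (5 / 6 : ℝ) * R) ^ (1 + δ)) :
    H ≤ B ^ (6 / (1 - 5 * δ)) * R ^ (6 * (1 + δ) / (1 - 5 * δ)) := by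
  have h5 : (0 : ℝ) < 1 - 5 * δ := by linarith
  rw [Real.mul_rpow (by positivity) hR, ← Real.rpow_mul hH.le] at h
  have h1 : H ^ ((1 - 5 * δ) / 6) ≤ B * R ^ (1 + δ) := by
    have e : H = H ^ ((1 - 5 * δ) / 6) * H ^ (5 / 6 * (1 + δ)) := by
      conv_lhs => rw [← Real.rpow_one H]
      rw [← Real.rpow_add hH]
      ring_nf
    have hpos : 0 < H ^ (5 / 6 * (1 + δ)) := by positivity
    refine le_of_mul_le_mul_right ?_ hpos
    calc H ^ ((1 - 5 * δ) / 6) * H ^ (5 / 6 * (1 + δ)) = H := e.symm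
      _ ≤ B * (H ^ (5 / 6 * (1 + δ)) * R ^ (1 + δ)) := h
      _ = _ := by ring
  have h2 := Real.rpow_le_rpow (by positivity) h1 (by positivity : 0 ≤ 6 / (1 - 5 * δ))
  rw [← Real.rpow_mul hH.le, Real.mul_rpow hB (by positivity), ← Real.rpow_mul hR] at h2
  rw [show (1 - 5 * δ) / 6 * (6 / (1 - 5 * δ)) = 1 by field_simp, Real.rpow_one] at h2
  rwa [mul_div_assoc', mul_comm (1 + δ)] at h2

/-- The abc bound implies the Hall bound. -/
theorem hall_of_abc (h : ABCBound) : HallBound := by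
  intro ε hε k
  set δ := ε / (36 + 5 * ε) with hδdef
  have hδ : 0 < δ := by positivity
  have hδ5 : 5 * δ < 1 := by
    rw [hδdef, mul_div_assoc', div_lt_one (by positivity)]
    linarith
  have hexp : 6 * (1 + δ) / (1 - 5 * δ) = 6 + ε := by
    rw [div_eq_iff (by linarith), hδdef]
    field_simp
    ring
  obtain ⟨A, hA1, hA⟩ := abc_signed h hδ
  set G : ℝ := ((6 ^ (3 * k) : ℕ) : ℝ) with hG
  have hG1 : 1 ≤ G := by
    rw [hG]; exact_mod_cast Nat.one_le_pow _ _ (by norm_num)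
  refine ⟨max G ((G * A) ^ (6 / (1 - 5 * δ))), fun x y hne hgcd => ?_⟩
  set R : ℝ := ((radical (x ^ 3 - y ^ 2).natAbs : ℕ) : ℝ) with hR
  have hR1 : 1 ≤ R := one_le_rad_cast _
  have hK : ((Int.gcd (x ^ 3) (y ^ 2) : ℕ) : ℝ) ≤ G := by
    rw [hG, pow_mul']
    exact_mod_cast Nat.le_of_dvd (by positivity)
      ((gcd_pow_dvd_gcd_cube x y).trans (pow_dvd_pow_of_dvd hgcd 3))
  rcases eq_or_ne x 0 with rfl | hx
  · rw [Int.gcd_zero_left] at hgcd
    have hy : (y.natAbs : ℤ) ^ 2 ≤ (6 ^ (3 * k) : ℕ) := by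
      have h1 := Nat.le_of_dvd (by positivity) (pow_dvd_pow_of_dvd hgcd 2)
      have h2 : (6 ^ k) ^ 2 ≤ 6 ^ (3 * k) := by
        rw [← pow_mul]; exact Nat.pow_le_pow_right (by norm_num) (by omega)
      exact_mod_cast h1.trans h2
    rw [Int.natAbs_sq] at hy
    have hle : ((max (|(0 : ℤ)| ^ 3) (y ^ 2) : ℤ) : ℝ) ≤ G := by
      rw [abs_zero, zero_pow three_ne_zero, max_eq_right (sq_nonneg y), hG]
      exact_mod_cast hy
    exact (hle.trans (le_max_left _ _)).trans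
      (le_mul_of_one_le_right (by linarith [le_max_left G ((G * A) ^ (6 / (1 - 5 * δ)))])
        (Real.one_le_rpow hR1 (by linarith)))
  rcases eq_or_ne y 0 with rfl | hy
  · rw [Int.gcd_zero_right] at hgcd
    have hx' : (x.natAbs : ℤ) ^ 3 ≤ (6 ^ (3 * k) : ℕ) := by
      rw [pow_mul']
      exact_mod_cast Nat.le_of_dvd (by positivity) (pow_dvd_pow_of_dvd hgcd 3)
    rw [← Int.abs_eq_natAbs] at hx'
    have hle : ((max (|x| ^ 3) ((0 : ℤ) ^ 2) : ℤ) : ℝ) ≤ G := by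
      rw [zero_pow two_ne_zero, max_eq_left (by positivity), hG]
      exact_mod_cast hx'
    exact (hle.trans (le_max_left _ _)).trans
      (le_mul_of_one_le_right (by linarith [le_max_left G ((G * A) ^ (6 / (1 - 5 * δ)))])
        (Real.one_le_rpow hR1 (by linarith)))
  set H : ℝ := ((max (|x| ^ 3) (y ^ 2) : ℤ) : ℝ) with hH
  have hH' : H = max (|(x : ℝ)| ^ 3) ((y : ℝ) ^ 2) := by rw [hH]; push_cast; rfl
  have hxR : (0 : ℝ) < |(x : ℝ)| := abs_pos.2 (Int.cast_ne_zero.2 hx)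
  have hHpos : 0 < H := by rw [hH']; exact lt_max_of_lt_left (by positivity)
  obtain ⟨w, hw⟩ : ((Int.gcd (x ^ 3) (y ^ 2) : ℕ) : ℤ) ∣ x ^ 3 := Int.gcd_dvd_left _ _
  obtain ⟨u, hu⟩ : ((Int.gcd (x ^ 3) (y ^ 2) : ℕ) : ℤ) ∣ y ^ 2 := Int.gcd_dvd_right _ _
  set g := Int.gcd (x ^ 3) (y ^ 2) with hg
  have hg0 : 0 < g := Int.gcd_pos_of_ne_zero_left _ (pow_ne_zero _ hx)
  have hcop : IsCoprime w u := by
    rw [Int.isCoprime_iff_gcd_eq_one]
    have e := hg
    rw [hw, hu, Int.gcd_mul_left, Int.natAbs_natCast] at e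
    exact Nat.eq_of_mul_eq_mul_left hg0 (e.symm.trans (mul_one g).symm)
  have hu0 : u ≠ 0 := fun h0 => by simp [h0, hy] at hu
  have hw0 : w ≠ 0 := fun h0 => by simp [h0, hx] at hw
  have hwu : w - u ≠ 0 := fun h0 => hne (by rw [hw, hu, sub_eq_zero.1 h0])
  have hco : IsCoprime u (w - u) := by
    simpa [sub_eq_add_neg] using hcop.symm.add_mul_left_right (-1 : ℤ)
  have e := hA u (w - u) w hu0 hwu hw0 hco (by ring)
  have hHle : H ≤ (g : ℝ) * ((max u.natAbs (max (w - u).natAbs w.natAbs) : ℕ) : ℝ) := by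
    have h3 : max (|x| ^ 3) (y ^ 2) ≤
        ((g * max u.natAbs (max (w - u).natAbs w.natAbs) : ℕ) : ℤ) := by
      have e1 : |x| ^ 3 = ((g * w.natAbs : ℕ) : ℤ) := by
        rw [← abs_pow, hw, abs_mul, Nat.abs_cast, Int.abs_eq_natAbs]; push_cast; rfl
      have e2 : y ^ 2 = ((g * u.natAbs : ℕ) : ℤ) := by
        rw [← abs_of_nonneg (sq_nonneg y), hu, abs_mul, Nat.abs_cast, Int.abs_eq_natAbs]
        push_cast; rfl
      rw [e1, e2]
      have m1 : g * w.natAbs ≤ g * max u.natAbs (max (w - u).natAbs w.natAbs) :=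
        Nat.mul_le_mul le_rfl (le_max_of_le_right (le_max_right _ _))
      have m2 : g * u.natAbs ≤ g * max u.natAbs (max (w - u).natAbs w.natAbs) :=
        Nat.mul_le_mul le_rfl (le_max_left _ _)
      exact max_le (Int.ofNat_le.2 m1) (Int.ofNat_le.2 m2)
    have h4 := (Int.cast_le (R := ℝ)).2 h3
    rw [Int.cast_natCast, Nat.cast_mul] at h4
    exact h4
  have hrad : radical (u * (w - u) * w).natAbs ≤
      x.natAbs * y.natAbs * radical (x ^ 3 - y ^ 2).natAbs := by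
    have hd : (u * (w - u) * w).natAbs ∣ (y ^ 2 * (x ^ 3 - y ^ 2) * x ^ 3).natAbs := by
      refine Int.natAbs_dvd_natAbs.2 (mul_dvd_mul (mul_dvd_mul ⟨g, ?_⟩ ⟨g, ?_⟩) ⟨g, ?_⟩)
      · rw [hu, mul_comm]
      · rw [hu, hw]; ring
      · rw [hw, mul_comm]
    have hne' : (y ^ 2 * (x ^ 3 - y ^ 2) * x ^ 3).natAbs ≠ 0 :=
      Int.natAbs_ne_zero.2 (mul_ne_zero (mul_ne_zero (pow_ne_zero _ hy) (sub_ne_zero.2 hne))
        (pow_ne_zero _ hx))
    refine (rad_mono hd hne').trans ?_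
    rw [Int.natAbs_mul, Int.natAbs_mul, Int.natAbs_pow, Int.natAbs_pow]
    refine ((rad_mul_le _ _).trans (Nat.mul_le_mul_right _ (rad_mul_le _ _))).trans ?_
    calc _ ≤ y.natAbs * radical (x ^ 3 - y ^ 2).natAbs * x.natAbs :=
          Nat.mul_le_mul (Nat.mul_le_mul_right _ (rad_pow_le (Int.natAbs_ne_zero.2 hy) _))
            (rad_pow_le (Int.natAbs_ne_zero.2 hx) _)
      _ = _ := by ring
  have hxy : |(x : ℝ)| * |(y : ℝ)| ≤ H ^ (5 / 6 : ℝ) := by
    have hx3 : |(x : ℝ)| ≤ H ^ (1 / 3 : ℝ) := by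
      rw [← Real.pow_rpow_inv_natCast (abs_nonneg (x : ℝ)) (by norm_num : (3 : ℕ) ≠ 0)]
      norm_num
      exact Real.rpow_le_rpow (by positivity) (by rw [hH']; exact le_max_left _ _) (by norm_num)
    have hy2 : |(y : ℝ)| ≤ H ^ (1 / 2 : ℝ) := by
      rw [← Real.pow_rpow_inv_natCast (abs_nonneg (y : ℝ)) (by norm_num : (2 : ℕ) ≠ 0)]
      norm_num
      exact Real.rpow_le_rpow (by positivity) (by rw [hH']; exact le_max_right _ _) (by norm_num)
    refine (mul_le_mul hx3 hy2 (abs_nonneg _) (by positivity)).trans_eq ?_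
    rw [← Real.rpow_add hHpos]
    norm_num
  have hrad' : ((radical (u * (w - u) * w).natAbs : ℕ) : ℝ) ≤ H ^ (5 / 6 : ℝ) * R := by
    have e1 : ((radical (u * (w - u) * w).natAbs : ℕ) : ℝ) ≤
        ((x.natAbs * y.natAbs * radical (x ^ 3 - y ^ 2).natAbs : ℕ) : ℝ) := by
      exact_mod_cast hrad
    push_cast at e1
    rw [Nat.cast_natAbs, Nat.cast_natAbs, Int.cast_abs, Int.cast_abs] at e1
    exact e1.trans (mul_le_mul_of_nonneg_right hxy (by positivity))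
  have hfin : H ≤ G * A * (H ^ (5 / 6 : ℝ) * R) ^ (1 + δ) := by
    refine hHle.trans ((mul_le_mul hK e (by positivity) (by positivity)).trans ?_)
    rw [mul_assoc G A]
    exact mul_le_mul_of_nonneg_left (mul_le_mul_of_nonneg_left
      (Real.rpow_le_rpow (Nat.cast_nonneg _) hrad' (add_pos zero_lt_one hδ).le)
      (zero_le_one.trans hA1)) (zero_le_one.trans hG1)
  refine (le_of_le_mul_rpow hHpos (by positivity) (by linarith) hδ5 hfin).trans ?_
  rw [hexp]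
  exact mul_le_mul_of_nonneg_right (le_max_right _ _) (by positivity)

/-- For coprime `a, b` the integers `a² + ab + b²` and `(b-a)(2a+b)(a+2b)` share at most a
factor `3`. -/
theorem gcd_invariants_dvd_three {a b : ℤ} (hab : IsCoprime a b) :
    Int.gcd (a ^ 2 + a * b + b ^ 2) ((b - a) * (2 * a + b) * (a + 2 * b)) ∣ 3 := by
  obtain ⟨p, hp⟩ : ((Int.gcd (a ^ 2 + a * b + b ^ 2)
      ((b - a) * (2 * a + b) * (a + 2 * b)) : ℕ) : ℤ) ∣ a ^ 2 + a * b + b ^ 2 :=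
    Int.gcd_dvd_left _ _
  obtain ⟨q, hq⟩ : ((Int.gcd (a ^ 2 + a * b + b ^ 2)
      ((b - a) * (2 * a + b) * (a + 2 * b)) : ℕ) : ℤ) ∣ (b - a) * (2 * a + b) * (a + 2 * b) :=
    Int.gcd_dvd_right _ _
  set g := Int.gcd (a ^ 2 + a * b + b ^ 2) ((b - a) * (2 * a + b) * (a + 2 * b))
  have hsa : IsCoprime (a ^ 2 + a * b + b ^ 2) a := by
    simpa [show a ^ 2 + a * b + b ^ 2 = b ^ 2 + (a + b) * a by ring] using
      (hab.symm.pow_left (m := 2)).add_mul_right_left (a + b)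
  have hsb : IsCoprime (a ^ 2 + a * b + b ^ 2) b := by
    simpa [show a ^ 2 + a * b + b ^ 2 = a ^ 2 + (a + b) * b by ring] using
      (hab.pow_left (m := 2)).add_mul_right_left (a + b)
  have hsc : IsCoprime (a ^ 2 + a * b + b ^ 2) (a + b) := by
    have h1 : IsCoprime a (a + b) := by simpa [add_comm] using hab.add_mul_left_right (1 : ℤ)
    have h2 : IsCoprime b (a + b) := by simpa using hab.symm.add_mul_left_right (1 : ℤ)
    simpa [show a ^ 2 + a * b + b ^ 2 = -(a * b) + (a + b) * (a + b) by ring] using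
      (h1.mul_left h2).neg_left.add_mul_right_left (a + b)
  have hall : IsCoprime (g : ℤ) (a * b * (a + b)) :=
    ((hsa.mul_right hsb).mul_right hsc).of_isCoprime_of_dvd_left ⟨p, hp⟩
  have hdvd : (g : ℤ) ^ 2 ∣ 27 * (a * b * (a + b)) ^ 2 :=
    ⟨4 * g * p ^ 3 - q ^ 2, by
      linear_combination (4 * ((a ^ 2 + a * b + b ^ 2) ^ 2 + (a ^ 2 + a * b + b ^ 2) * (g * p) +
        (g * p) ^ 2)) * hp - ((b - a) * (2 * a + b) * (a + 2 * b) + g * q) * hq⟩
  have h27 : g ^ 2 ∣ 27 := by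
    have := (hall.pow (m := 2) (n := 2)).dvd_of_dvd_mul_right hdvd
    exact_mod_cast this
  have hle : g ≤ 5 := by nlinarith [Nat.le_of_dvd (by norm_num) h27]
  interval_cases g <;> revert h27 <;> norm_num

theorem radical_fourhundredthirtytwo_le : radical (432 : ℕ) ≤ 6 := by
  rw [show (432 : ℕ) = 2 ^ 4 * 3 ^ 3 by norm_num]
  exact (rad_mul_le _ _).trans
    (Nat.mul_le_mul (rad_pow_le two_ne_zero 4) (rad_pow_le three_ne_zero 3))

theorem le_of_pow_six_le {c B R ε : ℝ} (hc : 0 ≤ c) (hB : 0 ≤ B) (hR : 0 ≤ R)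
    (h : c ^ 6 ≤ B * R ^ (6 + 6 * ε)) : c ≤ B ^ (1 / 6 : ℝ) * R ^ (1 + ε) := by
  have h9 := Real.rpow_le_rpow (by positivity) h (by norm_num : (0 : ℝ) ≤ 1 / 6)
  rw [Real.mul_rpow hB (by positivity), ← Real.rpow_mul hR, ← Real.rpow_natCast,
    ← Real.rpow_mul hc] at h9
  rwa [show ((6 : ℕ) : ℝ) * (1 / 6) = 1 by norm_num, Real.rpow_one,
    show (6 + 6 * ε) * (1 / 6 : ℝ) = 1 + ε by ring] at h9

/-- The Hall bound implies the abc bound. -/
theorem abc_of_hall (h : HallBound) : ABCBound := by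
  intro ε hε
  obtain ⟨C, hC⟩ := h (6 * ε) (by positivity) 2
  set B : ℝ := max C 1 / 27 * (6 : ℝ) ^ (6 + 6 * ε)
  refine ⟨B ^ (1 / 6 : ℝ), fun a b c ha hb hab habc => ?_⟩
  set R : ℝ := ((radical (a * b * c) : ℕ) : ℝ)
  subst habc
  have hab' : IsCoprime (a : ℤ) b := Nat.isCoprime_iff_coprime.2 hab
  set s : ℤ := (a : ℤ) ^ 2 + a * b + (b : ℤ) ^ 2 with hs
  set t : ℤ := ((b : ℤ) - a) * (2 * a + b) * (a + 2 * b) with ht
  have hD : (4 * s) ^ 3 - (4 * t) ^ 2 = ((432 * (a * b * (a + b)) ^ 2 : ℕ) : ℤ) := by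
    rw [hs, ht]; push_cast; ring
  have hne : (4 * s) ^ 3 ≠ (4 * t) ^ 2 := by
    rw [← sub_ne_zero, hD]; positivity
  have hgcd : Int.gcd (4 * s) (4 * t) ∣ 6 ^ 2 := by
    rw [Int.gcd_mul_left]
    exact (mul_dvd_mul_left _ (gcd_invariants_dvd_three hab')).trans (by norm_num)
  have e := hC (4 * s) (4 * t) hne hgcd
  rw [hD, Int.natAbs_natCast] at e
  have hr : ((radical (432 * (a * b * (a + b)) ^ 2) : ℕ) : ℝ) ≤ 6 * R := by
    have h1 : radical (432 * (a * b * (a + b)) ^ 2) ≤ 6 * radical (a * b * (a + b)) := by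
      refine (rad_mul_le _ _).trans (Nat.mul_le_mul radical_fourhundredthirtytwo_le ?_)
      rw [radical_pow _ two_ne_zero]
    have h2 : ((radical (432 * (a * b * (a + b)) ^ 2) : ℕ) : ℝ) ≤
        ((6 * radical (a * b * (a + b)) : ℕ) : ℝ) := by exact_mod_cast h1
    push_cast at h2
    exact h2
  have hbig : 27 * ((a : ℝ) + b) ^ 6 ≤
      ((max (|4 * s| ^ 3) ((4 * t) ^ 2) : ℤ) : ℝ) := by
    have h3 : 3 * ((a : ℤ) + b) ^ 2 ≤ 4 * s := by
      rw [hs]; nlinarith [sq_nonneg ((a : ℤ) - b)]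
    have h4 : 27 * ((a : ℤ) + b) ^ 6 ≤ max (|4 * s| ^ 3) ((4 * t) ^ 2) := by
      refine le_max_of_le_left ?_
      calc 27 * ((a : ℤ) + b) ^ 6 = (3 * ((a : ℤ) + b) ^ 2) ^ 3 := by ring
        _ ≤ (4 * s) ^ 3 := pow_le_pow_left₀ (by positivity) h3 3
        _ ≤ |4 * s| ^ 3 := by rw [← abs_pow]; exact le_abs_self _
    have h5 := (Int.cast_le (R := ℝ)).2 h4
    simp only [Int.cast_mul, Int.cast_pow, Int.cast_add, Int.cast_natCast, Int.cast_ofNat] at h5
    exact h5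
  have hR0 : 0 ≤ R := Nat.cast_nonneg _
  have hB0 : 0 ≤ B := by positivity
  have h6 : ((a : ℝ) + b) ^ 6 ≤ B * R ^ (6 + 6 * ε) := by
    have h7 : C * ((radical (432 * (a * b * (a + b)) ^ 2) : ℕ) : ℝ) ^ (6 + 6 * ε) ≤
        max C 1 * ((6 : ℝ) ^ (6 + 6 * ε) * R ^ (6 + 6 * ε)) := by
      rw [← Real.mul_rpow (by norm_num) hR0]
      exact mul_le_mul (le_max_left _ _) (Real.rpow_le_rpow (Nat.cast_nonneg _) hr (by positivity))
        (by positivity) (by positivity)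
    have h8 : 27 * ((a : ℝ) + b) ^ 6 ≤ 27 * (B * R ^ (6 + 6 * ε)) :=
      (hbig.trans (e.trans h7)).trans_eq (by simp only [B]; ring)
    linarith
  push_cast
  exact le_of_pow_six_le (by positivity) hB0 hR0 h6

/-- The abc conjecture is equivalent to Hall's conjecture with radicals. -/
theorem abc_iff_hall : ABCBound ↔ HallBound := ⟨hall_of_abc, abc_of_hall⟩

theorem c₄_cube_sub_c₆_sq_natAbs (W : WeierstrassCurve ℤ) :
    (W.c₄ ^ 3 - W.c₆ ^ 2).natAbs = 1728 * W.Δ.natAbs := by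
  rw [← W.c_relation, Int.natAbs_mul]; rfl

theorem szpiro_of_hall (h : HallBound) : SzpiroBound := by
  intro ε hε k
  obtain ⟨C, hC⟩ := h ε hε k
  refine ⟨max C 1 * (6 : ℝ) ^ (6 + ε), fun W hΔ hgcd => ?_⟩
  have hne : W.c₄ ^ 3 ≠ W.c₆ ^ 2 := by
    rw [← sub_ne_zero, ← W.c_relation]; exact mul_ne_zero (by norm_num) hΔ
  refine (hC _ _ hne hgcd).trans ?_
  rw [c₄_cube_sub_c₆_sq_natAbs, mul_assoc, ← Real.mul_rpow (by norm_num) (Nat.cast_nonneg _)]
  have h1 : radical (1728 * W.Δ.natAbs) ≤ 6 * radical W.Δ.natAbs := by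
    refine (rad_mul_le _ _).trans (Nat.mul_le_mul_right _ ?_)
    rw [show (1728 : ℕ) = 2 ^ 6 * 3 ^ 3 by norm_num]
    exact (rad_mul_le _ _).trans
      (Nat.mul_le_mul (rad_pow_le two_ne_zero 6) (rad_pow_le three_ne_zero 3))
  have h2 : ((radical (1728 * W.Δ.natAbs) : ℕ) : ℝ) ≤
      ((6 * radical W.Δ.natAbs : ℕ) : ℝ) := by exact_mod_cast h1
  push_cast at h2
  exact mul_le_mul (le_max_left _ _) (Real.rpow_le_rpow (Nat.cast_nonneg _) h2 (by positivity))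
    (by positivity) (by positivity)

/-- The Frey curve `Y² = X(X - a)(X + b)`. -/
def freyCurve (a b : ℤ) : WeierstrassCurve ℤ := ⟨0, b - a, 0, -(a * b), 0⟩

theorem freyCurve_Δ (a b : ℤ) : (freyCurve a b).Δ = 16 * (a * b * (a + b)) ^ 2 := by
  simp only [freyCurve, WeierstrassCurve.Δ, WeierstrassCurve.b₂, WeierstrassCurve.b₄,
    WeierstrassCurve.b₆, WeierstrassCurve.b₈]
  ring

theorem freyCurve_c₄ (a b : ℤ) : (freyCurve a b).c₄ = 16 * (a ^ 2 + a * b + b ^ 2) := by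
  simp only [freyCurve, WeierstrassCurve.c₄, WeierstrassCurve.b₂, WeierstrassCurve.b₄]
  ring

theorem freyCurve_c₆ (a b : ℤ) :
    (freyCurve a b).c₆ = -32 * ((b - a) * (2 * a + b) * (a + 2 * b)) := by
  simp only [freyCurve, WeierstrassCurve.c₆, WeierstrassCurve.b₂, WeierstrassCurve.b₄,
    WeierstrassCurve.b₆]
  ring

/-- The Szpiro bound implies the abc bound, by the Frey curve. -/
theorem abc_of_szpiro (h : SzpiroBound) : ABCBound := by
  intro ε hε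
  obtain ⟨C, hC⟩ := h (6 * ε) (by positivity) 5
  set B : ℝ := max C 1 * (2 : ℝ) ^ (6 + 6 * ε)
  refine ⟨B ^ (1 / 6 : ℝ), fun a b c ha hb hab habc => ?_⟩
  set R : ℝ := ((radical (a * b * c) : ℕ) : ℝ)
  subst habc
  have hab' : IsCoprime (a : ℤ) b := Nat.isCoprime_iff_coprime.2 hab
  have hD : (freyCurve a b).Δ = ((16 * (a * b * (a + b)) ^ 2 : ℕ) : ℤ) := by
    rw [freyCurve_Δ]; push_cast; rfl
  have hgcd : Int.gcd (freyCurve a b).c₄ (freyCurve a b).c₆ ∣ 6 ^ 5 := by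
    rw [freyCurve_c₄, freyCurve_c₆, show (-32 : ℤ) = 16 * -2 by norm_num, mul_assoc (16 : ℤ),
      Int.gcd_mul_left]
    refine (mul_dvd_mul_left _ (dvd_trans ?_ (mul_dvd_mul_left 2
      (gcd_invariants_dvd_three hab')))).trans
      (by norm_num : (16 : ℤ).natAbs * (2 * 3) ∣ 6 ^ 5)
    simp only [Int.gcd_def, Int.natAbs_mul]
    rw [← Nat.gcd_mul_left]
    exact Nat.gcd_dvd_gcd_mul_left_left _ _ 2
  have e := hC (freyCurve a b) (by rw [hD]; positivity) hgcd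
  rw [hD, Int.natAbs_natCast] at e
  have hr : ((radical (16 * (a * b * (a + b)) ^ 2) : ℕ) : ℝ) ≤ 2 * R := by
    have h1 : radical (16 * (a * b * (a + b)) ^ 2) ≤ 2 * radical (a * b * (a + b)) := by
      refine (rad_mul_le _ _).trans (Nat.mul_le_mul ?_ ?_)
      · rw [show (16 : ℕ) = 2 ^ 4 by norm_num]; exact rad_pow_le two_ne_zero 4
      · rw [radical_pow _ two_ne_zero]
    have h2 : ((radical (16 * (a * b * (a + b)) ^ 2) : ℕ) : ℝ) ≤
        ((2 * radical (a * b * (a + b)) : ℕ) : ℝ) := by exact_mod_cast h1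
    push_cast at h2
    exact h2
  have hbig : ((a : ℝ) + b) ^ 6 ≤
      ((max (|(freyCurve a b).c₄| ^ 3) ((freyCurve a b).c₆ ^ 2) : ℤ) : ℝ) := by
    have h3 : ((a : ℤ) + b) ^ 2 ≤ (freyCurve a b).c₄ := by
      rw [freyCurve_c₄]; nlinarith [sq_nonneg ((a : ℤ) - b), sq_nonneg ((a : ℤ) + b)]
    have h4 : ((a : ℤ) + b) ^ 6 ≤
        max (|(freyCurve a b).c₄| ^ 3) ((freyCurve a b).c₆ ^ 2) := by
      refine le_max_of_le_left ?_
      rw [show 6 = 2 * 3 by norm_num, pow_mul]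
      exact pow_le_pow_left₀ (by positivity) (h3.trans (le_abs_self _)) 3
    have h5 := (Int.cast_le (R := ℝ)).2 h4
    simp only [Int.cast_pow, Int.cast_add, Int.cast_natCast] at h5
    exact h5
  have hR0 : 0 ≤ R := Nat.cast_nonneg _
  have h6 : ((a : ℝ) + b) ^ 6 ≤ B * R ^ (6 + 6 * ε) := by
    refine hbig.trans (e.trans ?_)
    simp only [B]
    rw [mul_assoc (max C 1), ← Real.mul_rpow (by norm_num) hR0]
    exact mul_le_mul (le_max_left _ _) (Real.rpow_le_rpow (Nat.cast_nonneg _) hr (by positivity))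
      (by positivity) (by positivity)
  push_cast
  exact le_of_pow_six_le (by positivity) (by positivity) hR0 h6

/-- The abc conjecture is equivalent to the generalised Szpiro conjecture. -/
theorem abc_iff_szpiro : ABCBound ↔ SzpiroBound :=
  ⟨fun h => szpiro_of_hall (hall_of_abc h), abc_of_szpiro⟩

/-- A Weierstrass model over `ℤ` is semistable if no prime dividing its discriminant divides
`c₄`. -/
def IsSemistableModel (W : WeierstrassCurve ℤ) : Prop :=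
  ∀ p : ℕ, p.Prime → (p : ℤ) ∣ W.Δ → ¬(p : ℤ) ∣ W.c₄

theorem gcd_dvd_of_semistable {W : WeierstrassCurve ℤ} (hW : IsSemistableModel W) :
    Int.gcd W.c₄ W.c₆ ∣ 24 := by
  obtain ⟨p, hp⟩ : ((Int.gcd W.c₄ W.c₆ : ℕ) : ℤ) ∣ W.c₄ := Int.gcd_dvd_left _ _
  obtain ⟨q, hq⟩ : ((Int.gcd W.c₄ W.c₆ : ℕ) : ℤ) ∣ W.c₆ := Int.gcd_dvd_right _ _
  set g := Int.gcd W.c₄ W.c₆
  have hdvd : ((g ^ 2 : ℕ) : ℤ) ∣ 1728 * W.Δ :=
    ⟨g * p ^ 3 - q ^ 2, by
      push_cast
      linear_combination W.c_relation + (W.c₄ ^ 2 + W.c₄ * (g * p) + (g * p) ^ 2) * hp -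
        (W.c₆ + g * q) * hq⟩
  have hd2 : g ^ 2 ∣ 1728 * W.Δ.natAbs := by
    have := Int.natCast_dvd.1 hdvd
    rwa [Int.natAbs_mul] at this
  have hco : g.Coprime W.Δ.natAbs := Nat.coprime_of_dvd fun r hr h1 h2 =>
    hW r hr (Int.natCast_dvd.2 h2)
      ((Int.natCast_dvd_natCast.2 h1).trans ⟨p, hp⟩)
  have h : g ^ 2 ∣ 1728 := (hco.pow_left 2).dvd_of_dvd_mul_right hd2
  have hle : g ≤ 41 := by nlinarith [Nat.le_of_dvd (by norm_num) h]
  interval_cases g <;> revert h <;> norm_num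

/-- **Conditional**: under abc the discriminant and the invariants of every semistable model are
bounded by the power `6 + ε` of the radical of the discriminant. -/
theorem szpiro_semistable (h : ABCBound) {ε : ℝ} (hε : 0 < ε) :
    ∃ C : ℝ, ∀ W : WeierstrassCurve ℤ, W.Δ ≠ 0 → IsSemistableModel W →
      ((max (|W.c₄| ^ 3) (W.c₆ ^ 2) : ℤ) : ℝ) ≤
          C * ((radical W.Δ.natAbs : ℕ) : ℝ) ^ (6 + ε) ∧
        ((|W.Δ| : ℤ) : ℝ) ≤ C * ((radical W.Δ.natAbs : ℕ) : ℝ) ^ (6 + ε) := by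
  obtain ⟨C, hC⟩ := abc_iff_szpiro.1 h ε hε 3
  refine ⟨C, fun W hΔ hW => ?_⟩
  have e := hC W hΔ ((gcd_dvd_of_semistable hW).trans (by norm_num))
  refine ⟨e, le_trans (Int.cast_le.2 ?_) e⟩
  have h1 := W.c_relation
  have h2 := abs_sub (W.c₄ ^ 3) (W.c₆ ^ 2)
  rw [← h1, abs_mul, abs_pow, abs_of_nonneg (sq_nonneg W.c₆),
    abs_of_pos (by norm_num : (0 : ℤ) < 1728)] at h2
  nlinarith [le_max_left (|W.c₄| ^ 3) (W.c₆ ^ 2), le_max_right (|W.c₄| ^ 3) (W.c₆ ^ 2),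
    abs_nonneg W.Δ]

/-- Semistable models exist (`11A3`), and not every model is semistable. -/
theorem isSemistableModel_sanity :
    IsSemistableModel ⟨0, -1, 1, 0, 0⟩ ∧ (⟨0, -1, 1, 0, 0⟩ : WeierstrassCurve ℤ).Δ = -11 ∧
      ¬IsSemistableModel ⟨0, 0, 0, -1, 0⟩ := by
  have hΔ : (⟨0, -1, 1, 0, 0⟩ : WeierstrassCurve ℤ).Δ = -11 := by
    norm_num [WeierstrassCurve.Δ, WeierstrassCurve.b₂, WeierstrassCurve.b₄, WeierstrassCurve.b₆,
      WeierstrassCurve.b₈]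
  refine ⟨fun p hp hd hc => ?_, hΔ, fun h => h 2 Nat.prime_two ?_ ?_⟩
  · rw [hΔ, dvd_neg] at hd
    have h11 : p = 11 := (Nat.prime_dvd_prime_iff_eq hp (by decide)).1
      (Int.natCast_dvd_natCast.1 (by simpa using hd))
    subst h11
    norm_num [WeierstrassCurve.c₄, WeierstrassCurve.b₂, WeierstrassCurve.b₄] at hc
  · norm_num [WeierstrassCurve.Δ, WeierstrassCurve.b₂, WeierstrassCurve.b₄, WeierstrassCurve.b₆,
      WeierstrassCurve.b₈]
  · norm_num [WeierstrassCurve.c₄, WeierstrassCurve.b₂, WeierstrassCurve.b₄]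

/-- The gcd condition in the Szpiro bound cannot be dropped: quadratic twists violate it. -/
theorem not_szpiro_without_gcd (e : ℝ) :
    ¬∃ C : ℝ, ∀ W : WeierstrassCurve ℤ, W.Δ ≠ 0 →
      ((max (|W.c₄| ^ 3) (W.c₆ ^ 2) : ℤ) : ℝ) ≤
        C * ((radical W.Δ.natAbs : ℕ) : ℝ) ^ e := by
  rintro ⟨C, hC⟩
  obtain ⟨n, hn⟩ := pow_unbounded_of_one_lt (C * (2 : ℝ) ^ e) one_lt_two
  set W : WeierstrassCurve ℤ := ⟨0, 0, 0, -(2 ^ n) ^ 2, 0⟩ with hW
  have hΔ : W.Δ = ((2 ^ (6 * n + 6) : ℕ) : ℤ) := by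
    simp only [hW, WeierstrassCurve.Δ, WeierstrassCurve.b₂, WeierstrassCurve.b₄,
      WeierstrassCurve.b₆, WeierstrassCurve.b₈]
    push_cast
    ring
  have h := hC W (by rw [hΔ]; positivity)
  rw [hΔ, Int.natAbs_natCast, radical_pow _ (by omega),
    UniqueFactorizationMonoid.radical_of_prime Nat.prime_two.prime, normalize_eq,
    Nat.cast_ofNat] at h
  have hc : W.c₄ = 48 * (2 ^ n) ^ 2 := by
    simp only [hW, WeierstrassCurve.c₄, WeierstrassCurve.b₂, WeierstrassCurve.b₄]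
    ring
  have h4 : (2 : ℤ) ^ n ≤ max (|W.c₄| ^ 3) (W.c₆ ^ 2) := by
    refine le_max_of_le_left ((?_ : (2 : ℤ) ^ n ≤ |W.c₄|).trans
      (le_self_pow₀ ?_ three_ne_zero)) <;>
      rw [hc, abs_of_pos (by positivity)] <;>
      nlinarith [one_le_pow₀ (M₀ := ℤ) one_le_two (n := n)]
  have h5 := (Int.cast_le (R := ℝ)).2 h4
  rw [Int.cast_pow, Int.cast_ofNat] at h5
  linarith

end FA.Abc

end
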