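import Mathlib.FieldTheory.Finite.Basic
import Fermat.Agent.Abc.Basic

/-!
# Silverman's theorem on Wieferich primes

Under the abc bound, for every `a ≥ 2` there are infinitely many primes `p` such that
`a ^ (p - 1)` is not congruent to `1` modulo `p²`.
-/

set_option autoImplicit false

noncomputable section

open UniqueFactorizationMonoid (radical)

namespace FA.Abc

/-- A prime dividing `1 + a + ⋯ + a^(l-1)`, for a prime `l > a`, is `1` modulo `l` and does not
divide `a - 1`. -/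
theorem prime_dvd_geomSum {a l q : ℕ} (ha : 2 ≤ a) (hl : l.Prime) (hla : a < l) (hq : q.Prime)
    (hd : q ∣ ∑ i ∈ Finset.range l, a ^ i) : l ∣ q - 1 ∧ ¬q ∣ a - 1 := by
  have := Fact.mk hq
  have := Fact.mk hl
  have hN : ∑ i ∈ Finset.range l, (a : ZMod q) ^ i = 0 := by
    have h := (ZMod.natCast_eq_zero_iff _ q).2 hd
    push_cast at h
    exact h
  have hone : (a : ZMod q) ≠ 1 := fun h => by
    simp only [h, one_pow, Finset.sum_const, Finset.card_range, nsmul_one] at hN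
    have hql : q = l := (Nat.prime_dvd_prime_iff_eq hq hl).1 ((ZMod.natCast_eq_zero_iff _ q).1 hN)
    have h' : ((a - 1 : ℕ) : ZMod q) = 0 := by
      rw [Nat.cast_sub (by omega), Nat.cast_one, h, sub_self]
    have := Nat.le_of_dvd (by omega) ((ZMod.natCast_eq_zero_iff _ q).1 h')
    omega
  have hzero : (a : ZMod q) ≠ 0 := fun h => by
    have hs : Finset.range l = Finset.range ((l - 1) + 1) := by
      rw [Nat.sub_add_cancel hl.one_le]
    rw [hs, Finset.sum_range_succ', h] at hN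
    simp at hN
  have hpow : (a : ZMod q) ^ l = 1 := by
    have h := geom_sum_mul (a : ZMod q) l
    rw [hN, zero_mul] at h
    exact sub_eq_zero.1 h.symm
  refine ⟨?_, fun h => hone ?_⟩
  · rw [← orderOf_eq_prime hpow hone]
    exact ZMod.orderOf_dvd_card_sub_one hzero
  · have h' := (ZMod.natCast_eq_zero_iff _ q).2 h
    rwa [Nat.cast_sub (by omega), Nat.cast_one, sub_eq_zero] at h'

/-- If `q` is a Wieferich prime for `a`, then `q²` divides `1 + a + ⋯ + a^(l-1)` as soon as `q`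
does. -/
theorem sq_dvd_geomSum {a l q : ℕ} (ha : 2 ≤ a) (hl : l.Prime) (hla : a < l) (hq : q.Prime)
    (hd : q ∣ ∑ i ∈ Finset.range l, a ^ i) (hw : a ^ (q - 1) % q ^ 2 = 1) :
    q ^ 2 ∣ ∑ i ∈ Finset.range l, a ^ i := by
  obtain ⟨hlq, hna⟩ := prime_dvd_geomSum ha hl hla hq hd
  obtain ⟨m, hm⟩ := hlq
  set A : ℤ := (a : ℤ) ^ l with hA
  have hA1 : (∑ i ∈ Finset.range l, a ^ i : ℕ) * ((a : ℤ) - 1) = A - 1 := by
    push_cast; exact geom_sum_mul _ _
  have hqA : (q : ℤ) ∣ A - 1 := hA1 ▸ (Int.natCast_dvd_natCast.2 hd).mul_right _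
  have hsq : (q : ℤ) ^ 2 ∣ (∑ i ∈ Finset.range m, A ^ i) * (A - 1) := by
    rw [geom_sum_mul, hA, ← pow_mul, ← hm]
    have h := Nat.ModEq.symm (show a ^ (q - 1) ≡ 1 [MOD q ^ 2] by
      rw [Nat.ModEq, hw, Nat.one_mod_eq_one.2]
      exact (Nat.one_lt_pow two_ne_zero hq.one_lt).ne')
    simpa using (Nat.modEq_iff_dvd.1 h)
  have hns : ¬(q : ℤ) ∣ ∑ i ∈ Finset.range m, A ^ i := fun h => by
    have h1 : (q : ℤ) ∣ (∑ i ∈ Finset.range m, A ^ i) - m := by
      have e : (∑ i ∈ Finset.range m, A ^ i) - (m : ℤ) = ∑ i ∈ Finset.range m, (A ^ i - 1) := by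
        simp
      rw [e]
      exact Finset.dvd_sum fun i _ => hqA.trans (sub_one_dvd_pow_sub_one A i)
    have h2 : q ∣ m := Int.natCast_dvd_natCast.1 (by simpa using h.sub h1)
    have hm0 : 0 < m := Nat.pos_of_ne_zero fun h0 => by
      rw [h0, mul_zero] at hm
      have := hq.two_le
      omega
    have := Nat.le_of_dvd hm0 h2
    have := Nat.le_mul_of_pos_left m hl.pos
    have := hq.two_le
    omega
  have hqp : Prime (q : ℤ) := Nat.prime_iff_prime_int.1 hq
  have h3 : (q : ℤ) ^ 2 ∣ A - 1 :=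
    ((hqp.coprime_iff_not_dvd.2 hns).pow_left).dvd_of_dvd_mul_left hsq
  rw [← hA1] at h3
  have h4 : ¬(q : ℤ) ∣ (a : ℤ) - 1 := fun h => hna <| Int.natCast_dvd_natCast.1 <| by
    rwa [Nat.cast_sub (by omega), Nat.cast_one]
  have h5 := ((hqp.coprime_iff_not_dvd.2 h4).pow_left (m := 2)).dvd_of_dvd_mul_right h3
  exact_mod_cast h5

/-- The square of the radical divides a squarefull number. -/
theorem rad_sq_dvd {n : ℕ} (h : ∀ p : ℕ, p.Prime → p ∣ n → p ^ 2 ∣ n) : radical n ^ 2 ∣ n := by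
  rw [Nat.radical_eq_prod_primeFactors, ← Finset.prod_pow]
  refine Finset.prod_dvd_of_isRelPrime (fun p hp q hq hne => ?_) fun p hp =>
    h p (Nat.prime_of_mem_primeFactors hp) (Nat.dvd_of_mem_primeFactors hp)
  rw [Function.onFun, ← Nat.coprime_iff_isRelPrime]
  exact ((Nat.coprime_primes (Nat.prime_of_mem_primeFactors (by simpa using hp))
    (Nat.prime_of_mem_primeFactors (by simpa using hq))).2 hne).pow 2 2

/-- **Conditional, Silverman**: under abc there are, for every `a ≥ 2`, infinitely many primes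
`p` which do not divide `a` with `a ^ (p - 1) ≢ 1 (mod p²)`. -/
theorem infinite_nonWieferich (h : ABCBound) {a : ℕ} (ha : 2 ≤ a) :
    {p : ℕ | p.Prime ∧ ¬p ∣ a ∧ a ^ (p - 1) % p ^ 2 ≠ 1}.Infinite := by
  intro hfin
  obtain ⟨B, hB⟩ := hfin.bddAbove
  obtain ⟨C, hC⟩ := h (1 / 2) (by norm_num)
  obtain ⟨M, hM⟩ := exists_nat_ge (max C 1 ^ 4 * (a : ℝ) ^ 12)
  obtain ⟨l, hl1, hl⟩ := Nat.exists_infinite_primes (max B (max a M) + 1)
  set N := ∑ i ∈ Finset.range l, a ^ i with hN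
  have hgs : N * (a - 1) + 1 = a ^ l := by
    have h1 := geom_sum_mul_of_one_le (x := a) (by omega) l
    have h2 := Nat.one_le_pow l a (by omega)
    rw [← hN] at h1
    omega
  have hN0 : 0 < N := Nat.pos_of_ne_zero fun h0 => by
    rw [h0, zero_mul, zero_add] at hgs
    exact absurd hgs.symm (Nat.one_lt_pow hl.ne_zero ha).ne'
  have hsf : radical N ^ 2 ∣ N := rad_sq_dvd fun q hq hd => by
    obtain ⟨hlq, -⟩ := prime_dvd_geomSum ha hl (by omega) hq hd
    have hlt : l < q := by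
      have := Nat.le_of_dvd (by have := hq.two_le; omega) hlq
      omega
    refine sq_dvd_geomSum ha hl (by omega) hq hd (by_contra fun hw => ?_)
    have hqa : ¬q ∣ a := fun hd' => by
      have := Nat.le_of_dvd (by omega) hd'
      omega
    have : q ≤ B := hB ⟨hq, hqa, hw⟩
    omega
  have hna : 0 < N * (a - 1) := Nat.mul_pos hN0 (by omega)
  have e := hC 1 (N * (a - 1)) (a ^ l) one_pos hna (Nat.coprime_one_left _) (by omega)
  have hr : radical (1 * (N * (a - 1)) * a ^ l) ≤ a ^ 2 * radical N := by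
    rw [one_mul]
    refine (rad_mul_le _ _).trans ?_
    calc radical (N * (a - 1)) * radical (a ^ l)
        ≤ radical N * (a - 1) * a := Nat.mul_le_mul ((rad_mul_le _ _).trans
          (Nat.mul_le_mul le_rfl (rad_le_self (by omega)))) (rad_pow_le (by omega) l)
      _ ≤ radical N * a * a := Nat.mul_le_mul_right _ (Nat.mul_le_mul le_rfl (Nat.sub_le a 1))
      _ = a ^ 2 * radical N := by ring
  set K := max C 1 with hK
  set X : ℝ := ((radical (1 * (N * (a - 1)) * a ^ l) : ℕ) : ℝ) with hX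
  set c : ℝ := ((a ^ l : ℕ) : ℝ) with hc
  have hX0 : 0 ≤ X := Nat.cast_nonneg _
  have hc1 : 1 ≤ c := by
    rw [hc]; exact_mod_cast Nat.one_le_pow l a (by omega)
  have hK0 : 0 ≤ K := le_max_of_le_right zero_le_one
  have h1 : c ^ 4 ≤ K ^ 4 * X ^ 6 := by
    have h2 : c ≤ K * X ^ (1 + 1 / 2 : ℝ) :=
      e.trans (mul_le_mul_of_nonneg_right (le_max_left _ _) (by positivity))
    refine (pow_le_pow_left₀ (by linarith) h2 4).trans_eq ?_
    rw [mul_pow, ← Real.rpow_mul_natCast hX0, show (1 + 1 / 2 : ℝ) * (4 : ℕ) = (6 : ℕ) by norm_num,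
      Real.rpow_natCast]
  have h3 : X ^ 6 ≤ (a : ℝ) ^ 12 * c ^ 3 := by
    have h4 : radical (1 * (N * (a - 1)) * a ^ l) ^ 6 ≤ a ^ 12 * (a ^ l) ^ 3 := by
      refine (Nat.pow_le_pow_left hr 6).trans ?_
      rw [mul_pow, ← pow_mul, show radical N ^ 6 = (radical N ^ 2) ^ 3 by ring]
      refine Nat.mul_le_mul le_rfl (Nat.pow_le_pow_left ((Nat.le_of_dvd hN0 hsf).trans ?_) 3)
      have := Nat.le_mul_of_pos_right N (show 0 < a - 1 by omega)
      omega
    rw [hX, hc]
    exact_mod_cast h4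
  have h5 : c ≤ K ^ 4 * (a : ℝ) ^ 12 := by
    refine le_of_mul_le_mul_right ?_ (pow_pos (by linarith) 3 : 0 < c ^ 3)
    nlinarith [pow_nonneg hK0 4]
  have h6 : a ^ l ≤ M := by
    have h7 : c ≤ (M : ℝ) := h5.trans hM
    rw [hc] at h7
    exact_mod_cast h7
  have := Nat.lt_pow_self (n := l) (show 1 < a by omega)
  omega

end FA.Abc

end
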